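/-
Program DS, package F (Rankin bound), leaf F3: Abel summation.
Nonnegative `b` with `∑_{n ≤ x} b_n ≤ C x` has `∑ b_n n^{-s} ≤ 2C/(s-1)` on `(1, 2]`.
-/
import Mathlib

set_option autoImplicit false

namespace Fermat.Agent.DS

/-- Exact summation by parts. -/
private theorem dsf_abel_identity (b g : ℕ → ℝ) (M : ℕ) :
    ∑ n ∈ Finset.range (M + 1), b n * g n =
      (∑ k ∈ Finset.range (M + 1), b k) * g M +
        ∑ n ∈ Finset.range M, (∑ k ∈ Finset.range (n + 1), b k) * (g n - g (n + 1)) := by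
  induction M with
  | zero => simp
  | succ M ih =>
      have e1 : ∑ n ∈ Finset.range (M + 1 + 1), b n * g n =
          ∑ n ∈ Finset.range (M + 1), b n * g n + b (M + 1) * g (M + 1) :=
        Finset.sum_range_succ _ _
      have e2 : ∑ k ∈ Finset.range (M + 1 + 1), b k =
          ∑ k ∈ Finset.range (M + 1), b k + b (M + 1) := Finset.sum_range_succ _ _
      have e3 : ∑ n ∈ Finset.range (M + 1),
            (∑ k ∈ Finset.range (n + 1), b k) * (g n - g (n + 1)) =
          ∑ n ∈ Finset.range M, (∑ k ∈ Finset.range (n + 1), b k) * (g n - g (n + 1)) +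
            (∑ k ∈ Finset.range (M + 1), b k) * (g M - g (M + 1)) := Finset.sum_range_succ _ _
      rw [e1, ih, e2, e3]
      ring

/-- `∑_{n ≤ M} n^{-s} ≤ 1 + 1/(s-1)` (the `n = 0` term vanishes). -/
private theorem dsf_zeta_partial (s : ℝ) (hs1 : 1 < s) (M : ℕ) :
    ∑ n ∈ Finset.range (M + 1), (n : ℝ) ^ (-s) ≤ 1 + 1 / (s - 1) := by
  rcases M with _ | M
  · have : (0 : ℝ) ^ (-s) = 0 := Real.zero_rpow (by linarith)
    have h2 : 0 < (s - 1)⁻¹ := inv_pos.mpr (by linarith)
    simp [this]; linarith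
  · -- split off n = 0 and n = 1
    rw [Finset.sum_range_succ' _ (M + 1), Finset.sum_range_succ' _ M]
    have h0 : ((0 : ℕ) : ℝ) ^ (-s) = 0 := by
      rw [Nat.cast_zero]; exact Real.zero_rpow (by linarith)
    have h1 : (((0 : ℕ) + 1 : ℕ) : ℝ) ^ (-s) = 1 := by simp
    rw [h0, h1, add_zero]
    -- remaining: ∑_{i<M} (i+2)^{-s} ≤ 1/(s-1)
    have hanti : AntitoneOn (fun x : ℝ => x ^ (-s)) (Set.Icc (1 : ℝ) (1 + (M : ℕ))) := by
      intro x hx y hy hxy
      have hx0 : 0 < x := by linarith [hx.1]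
      exact Real.rpow_le_rpow_of_nonpos hx0 hxy (by linarith)
    have hsum := AntitoneOn.sum_le_integral (f := fun x : ℝ => x ^ (-s)) (x₀ := 1) (a := M) hanti
    have hint : ∫ x in (1 : ℝ)..1 + (M : ℕ), x ^ (-s) =
        ((1 + (M : ℝ)) ^ (-s + 1) - 1 ^ (-s + 1)) / (-s + 1) := by
      apply integral_rpow
      right
      refine ⟨by linarith, ?_⟩
      rw [Set.uIcc_of_le (by have : (0 : ℝ) ≤ (M : ℕ) := Nat.cast_nonneg M; linarith)]
      intro h
      have := h.1
      linarith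
    have hle : ∫ x in (1 : ℝ)..1 + (M : ℕ), x ^ (-s) ≤ 1 / (s - 1) := by
      rw [hint, Real.one_rpow]
      have hpos : 0 < (1 + (M : ℝ)) ^ (-s + 1) := by
        apply Real.rpow_pos_of_pos
        have : (0 : ℝ) ≤ M := Nat.cast_nonneg M
        linarith
      have hneg : -s + 1 < 0 := by linarith
      rw [div_le_iff_of_neg hneg]
      have hne : s - 1 ≠ 0 := by linarith
      have : 1 / (s - 1) * (-s + 1) = -1 := by
        rw [show -s + 1 = -(s - 1) by ring, mul_neg, one_div, inv_mul_cancel₀ hne]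
      rw [this]
      linarith
    have hcast : ∀ i : ℕ, ((i + 1 + 1 : ℕ) : ℝ) = 1 + ((i + 1 : ℕ) : ℝ) := by
      intro i; push_cast; ring
    calc ∑ i ∈ Finset.range M, ((i + 1 + 1 : ℕ) : ℝ) ^ (-s) + 1
        = ∑ i ∈ Finset.range M, (1 + ((i + 1 : ℕ) : ℝ)) ^ (-s) + 1 := by
          simp only [hcast]
      _ ≤ 1 / (s - 1) + 1 := by linarith [hsum.trans hle]
      _ = 1 + 1 / (s - 1) := add_comm _ _

/-- F3.  Nonnegative `b` with `∑_{n ≤ x} b_n ≤ C x` has `∑ b_n n^{-s} ≤ 2C/(s-1)` on `(1, 2]`. -/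
theorem dsf_dirichlet_bound (b : ℕ → ℝ) (hb : ∀ n, 0 ≤ b n) (C : ℝ)
    (hC : ∀ x : ℕ, ∑ n ∈ Finset.range (x + 1), b n ≤ C * x) (s : ℝ) (hs1 : 1 < s) (hs2 : s ≤ 2) :
    Summable (fun n : ℕ => b n * (n : ℝ) ^ (-s)) ∧
      ∑' n : ℕ, b n * (n : ℝ) ^ (-s) ≤ 2 * C / (s - 1) := by
  have hs0 : 0 < s - 1 := by linarith
  have hC0 : 0 ≤ C := by
    have := hC 1
    have h2 : 0 ≤ ∑ n ∈ Finset.range (1 + 1), b n := Finset.sum_nonneg fun n _ => hb n
    simp at this
    linarith [hb 0, hb 1]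
  set g : ℕ → ℝ := fun n => (n : ℝ) ^ (-s) with hg
  have hg0 : ∀ n, 0 ≤ g n := fun n => Real.rpow_nonneg (Nat.cast_nonneg n) _
  have hganti : ∀ n : ℕ, 1 ≤ n → g (n + 1) ≤ g n := by
    intro n hn
    have hn0 : (0 : ℝ) < n := by exact_mod_cast hn
    exact Real.rpow_le_rpow_of_nonpos hn0 (by push_cast; linarith) (by linarith)
  -- partial sums
  have hpart : ∀ M : ℕ, ∑ n ∈ Finset.range (M + 1), b n * g n ≤ C * (1 + 1 / (s - 1)) := by
    intro M
    rw [dsf_abel_identity b g M]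
    -- comparison sequence `b' n = if n = 0 then 0 else 1`, `A' n = n`
    have hA' : ∀ n : ℕ, ∑ k ∈ Finset.range (n + 1), (if k = 0 then (0 : ℝ) else 1) = n := by
      intro n
      induction n with
      | zero => simp
      | succ n ih => rw [Finset.sum_range_succ, ih]; simp
    have hid := dsf_abel_identity (fun k => if k = 0 then (0 : ℝ) else 1) g M
    simp only [hA'] at hid
    have hzeta := dsf_zeta_partial s hs1 M
    have hsumg : ∑ n ∈ Finset.range (M + 1), (if n = 0 then (0 : ℝ) else 1) * g n =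
        ∑ n ∈ Finset.range (M + 1), g n := by
      refine Finset.sum_congr rfl fun n _ => ?_
      by_cases hn : n = 0
      · subst hn
        have : g 0 = 0 := by
          simp only [hg, Nat.cast_zero]
          exact Real.zero_rpow (by linarith)
        simp [this]
      · simp [hn]
    rw [hsumg] at hid
    have h1 : (∑ k ∈ Finset.range (M + 1), b k) * g M ≤ C * ((M : ℝ) * g M) := by
      calc (∑ k ∈ Finset.range (M + 1), b k) * g M ≤ (C * M) * g M :=
            mul_le_mul_of_nonneg_right (hC M) (hg0 M)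
        _ = C * ((M : ℝ) * g M) := by ring
    have h2 : ∑ n ∈ Finset.range M, (∑ k ∈ Finset.range (n + 1), b k) * (g n - g (n + 1)) ≤
        C * ∑ n ∈ Finset.range M, (n : ℝ) * (g n - g (n + 1)) := by
      rw [Finset.mul_sum]
      refine Finset.sum_le_sum fun n _ => ?_
      rcases n with _ | n
      · -- n = 0 : A(0) = b 0 = 0
        have hb0 : b 0 = 0 := by
          have := hC 0
          simp at this
          exact le_antisymm this (hb 0)
        simp [hb0]
      · have hdiff : 0 ≤ g (n + 1) - g (n + 1 + 1) := sub_nonneg.mpr (hganti (n + 1) (by omega))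
        calc (∑ k ∈ Finset.range (n + 1 + 1), b k) * (g (n + 1) - g (n + 1 + 1))
            ≤ (C * ((n + 1 : ℕ) : ℝ)) * (g (n + 1) - g (n + 1 + 1)) :=
              mul_le_mul_of_nonneg_right (hC (n + 1)) hdiff
          _ = C * (((n + 1 : ℕ) : ℝ) * (g (n + 1) - g (n + 1 + 1))) := by ring
    calc (∑ k ∈ Finset.range (M + 1), b k) * g M +
          ∑ n ∈ Finset.range M, (∑ k ∈ Finset.range (n + 1), b k) * (g n - g (n + 1))
        ≤ C * ((M : ℝ) * g M) + C * ∑ n ∈ Finset.range M, (n : ℝ) * (g n - g (n + 1)) :=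
          add_le_add h1 h2
      _ = C * ∑ n ∈ Finset.range (M + 1), g n := by rw [hid]; ring
      _ ≤ C * (1 + 1 / (s - 1)) := mul_le_mul_of_nonneg_left hzeta hC0
  have hbound : C * (1 + 1 / (s - 1)) ≤ 2 * C / (s - 1) := by
    have : 1 + 1 / (s - 1) ≤ 2 / (s - 1) := by
      have e : (1 : ℝ) + 1 / (s - 1) = s / (s - 1) := by
        field_simp
        ring
      rw [e]
      exact div_le_div_of_nonneg_right hs2 hs0.le
    calc C * (1 + 1 / (s - 1)) ≤ C * (2 / (s - 1)) := mul_le_mul_of_nonneg_left this hC0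
      _ = 2 * C / (s - 1) := by ring
  have hnonneg : ∀ n, 0 ≤ b n * g n := fun n => mul_nonneg (hb n) (hg0 n)
  have hpart' : ∀ M : ℕ, ∑ n ∈ Finset.range M, b n * g n ≤ 2 * C / (s - 1) := by
    intro M
    calc ∑ n ∈ Finset.range M, b n * g n ≤ ∑ n ∈ Finset.range (M + 1), b n * g n :=
          Finset.sum_le_sum_of_subset_of_nonneg (Finset.range_subset_range.mpr (Nat.le_succ M))
            (fun n _ _ => hnonneg n)
      _ ≤ C * (1 + 1 / (s - 1)) := hpart M
      _ ≤ 2 * C / (s - 1) := hbound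
  exact ⟨summable_of_sum_range_le hnonneg hpart', Real.tsum_le_of_sum_range_le hnonneg hpart'⟩

end Fermat.Agent.DS
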