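/-
Program DS (S48, Deligne–Serre), package F (Rankin's bound): definitions.
-/
import Mathlib

set_option autoImplicit false

namespace Fermat.Agent.DS

/-- The formal Hecke relations of S48 for a sequence `a`, level `N`, "character" `e` (only the
values `e p`, `p ∤ N` prime, matter; they have norm one). -/
structure DsfHecke (N : ℕ) (e : ℕ → ℂ) (a : ℕ → ℂ) : Prop where
  one : a 1 = 1
  rel : ∀ p : ℕ, p.Prime → ¬ p ∣ N → ∀ n : ℕ,
    a (p * n) + e p * (if p ∣ n then a (n / p) else 0) = a p * a n
  norm_e : ∀ p : ℕ, p.Prime → ¬ p ∣ N → ‖e p‖ = 1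

/-- The index type of the Rankin sum: primes not dividing `N`. -/
abbrev DsfPrime (N : ℕ) : Type := {p : ℕ // p.Prime ∧ ¬ p ∣ N}

end Fermat.Agent.DS
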