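/-
Program DS, package F (Rankin bound), leaf F6: Euler product lower bound and the correction term.
-/
import Mathlib

set_option autoImplicit false

namespace Fermat.Agent.DS

/-- F6.  For a nonnegative summable multiplicative `b`, finite partial Euler products are below the
full sum. -/
theorem dsf_euler_lower (b : ℕ → ℝ) (hb0 : ∀ n, 0 ≤ b n) (hb1 : b 1 = 1)
    (hmul : ∀ m n : ℕ, m.Coprime n → b (m * n) = b m * b n) (hsum : Summable b)
    (P : Finset ℕ) (hP : ∀ p ∈ P, p.Prime) :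
    ∏ p ∈ P, ∑' m : ℕ, b (p ^ m) ≤ ∑' n : ℕ, b n := by
  have hpp : ∀ {p : ℕ}, p.Prime → Summable (fun n : ℕ => ‖b (p ^ n)‖) := by
    intro p hp
    have hinj : Function.Injective (fun n : ℕ => p ^ n) := Nat.pow_right_injective hp.two_le
    have := hsum.comp_injective hinj
    simpa [Function.comp_def, Real.norm_of_nonneg (hb0 _)] using this
  obtain ⟨-, hS⟩ := EulerProduct.summable_and_hasSum_factoredNumbers_prod_filter_prime_tsum
    (f := b) hb1 (fun {m n} h => hmul m n h) hpp P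
  have hfilter : Finset.filter (fun p => p.Prime) P = P :=
    Finset.filter_true_of_mem hP
  rw [hfilter] at hS
  rw [← hS.tsum_eq]
  -- a sum over a subtype of a nonnegative summable function is at most the full sum
  have := (hsum.subtype (Nat.factoredNumbers P))
  calc ∑' m : Nat.factoredNumbers P, b m
      = ∑' n : ℕ, (Nat.factoredNumbers P).indicator b n := (tsum_subtype _ b)
    _ ≤ ∑' n : ℕ, b n := by
        refine Summable.tsum_le_tsum (fun n => ?_) (hsum.indicator _) hsum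
        exact Set.indicator_le_self' (fun _ _ => hb0 _) n

/-- F6'.  `∑_p -log(1 - p^{-2s}) ≤ 2` uniformly for `s ≥ 1`. -/
theorem dsf_log_correction (P : Finset ℕ) (hP : ∀ p ∈ P, p.Prime) (s : ℝ) (hs : 1 ≤ s) :
    ∑ p ∈ P, -Real.log (1 - ((p : ℝ) ^ (-s)) ^ 2) ≤ 2 := by
  -- termwise: `-log(1 - x²) ≤ 2 x²` for `0 ≤ x ≤ 1/2`, and `x = p^{-s} ≤ 1/p`
  have hterm : ∀ p ∈ P, -Real.log (1 - ((p : ℝ) ^ (-s)) ^ 2) ≤ 2 / ((p : ℝ) * p) := by
    intro p hp
    have hpp := hP p hp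
    have hp2 : (2 : ℝ) ≤ p := by exact_mod_cast hpp.two_le
    have hp0 : (0 : ℝ) < p := by linarith
    set x : ℝ := (p : ℝ) ^ (-s) with hx
    have hx0 : 0 < x := Real.rpow_pos_of_pos hp0 _
    have hx1 : x ≤ 1 / p := by
      rw [hx, Real.rpow_neg hp0.le, one_div]
      apply inv_anti₀ hp0
      calc (p : ℝ) = (p : ℝ) ^ (1 : ℝ) := (Real.rpow_one _).symm
        _ ≤ (p : ℝ) ^ s := Real.rpow_le_rpow_of_exponent_le (by linarith) hs
    have hxhalf : x ≤ 1 / 2 := hx1.trans (by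
      rw [one_div, one_div]; exact inv_anti₀ (by norm_num) hp2)
    have hx2 : x ^ 2 ≤ 1 / ((p : ℝ) * p) := by
      calc x ^ 2 = x * x := sq x
        _ ≤ (1 / p) * (1 / p) := mul_le_mul hx1 hx1 hx0.le (by positivity)
        _ = 1 / ((p : ℝ) * p) := by field_simp
    have hy0 : 0 < 1 - x ^ 2 := by nlinarith
    -- `log (1/(1 - y)) ≤ 1/(1-y) - 1 = y/(1-y) ≤ 2 y` for `y ≤ 1/4 ≤ 1/2`
    have hy4 : x ^ 2 ≤ 1 / 4 := by nlinarith
    have hlog : -Real.log (1 - x ^ 2) ≤ (1 - x ^ 2)⁻¹ - 1 := by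
      rw [← Real.log_inv]
      have := Real.log_le_sub_one_of_pos (inv_pos.mpr hy0)
      linarith
    have hfrac : (1 - x ^ 2)⁻¹ - 1 ≤ 2 * x ^ 2 := by
      rw [sub_le_iff_le_add, inv_le_iff_one_le_mul₀ hy0]
      nlinarith
    calc -Real.log (1 - x ^ 2) ≤ 2 * x ^ 2 := hlog.trans hfrac
      _ ≤ 2 * (1 / ((p : ℝ) * p)) := by linarith
      _ = 2 / ((p : ℝ) * p) := by ring
  refine (Finset.sum_le_sum hterm).trans ?_
  -- `∑_{p ∈ P} 2/p² ≤ 2 ∑_{n ≥ 2} 1/(n(n-1))`-type telescoping bound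
  have hbound : ∀ p ∈ P, 2 / ((p : ℝ) * p) ≤ 2 * (1 / ((p : ℝ) - 1) - 1 / (p : ℝ)) := by
    intro p hp
    have hp2 : (2 : ℝ) ≤ p := by exact_mod_cast (hP p hp).two_le
    have h1 : (0 : ℝ) < (p : ℝ) - 1 := by linarith
    have h0 : (0 : ℝ) < p := by linarith
    rw [div_sub_div _ _ h1.ne' h0.ne', div_le_iff₀ (by positivity)]
    field_simp
    nlinarith
  refine (Finset.sum_le_sum hbound).trans ?_
  rw [← Finset.mul_sum]
  -- telescoping over a finite set of naturals `≥ 2`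
  have htel : ∀ (Q : Finset ℕ), (∀ p ∈ Q, 2 ≤ p) →
      ∑ p ∈ Q, (1 / ((p : ℝ) - 1) - 1 / (p : ℝ)) ≤ 1 := by
    intro Q hQ
    -- bound by the sum over `Finset.Icc 2 M`
    obtain ⟨M, hM⟩ : ∃ M : ℕ, ∀ p ∈ Q, p ≤ M := ⟨Q.sup id, fun p hp => Finset.le_sup (f := id) hp⟩
    have hsub : Q ⊆ Finset.Icc 2 (M + 2) := by
      intro p hp
      rw [Finset.mem_Icc]
      exact ⟨hQ p hp, (hM p hp).trans (by omega)⟩
    have hnn : ∀ p ∈ Finset.Icc 2 (M + 2), p ∉ Q → 0 ≤ (1 / ((p : ℝ) - 1) - 1 / (p : ℝ)) := by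
      intro p hp _
      rw [Finset.mem_Icc] at hp
      have hp2 : (2 : ℝ) ≤ p := by exact_mod_cast hp.1
      have h1 : (0 : ℝ) < (p : ℝ) - 1 := by linarith
      have h0 : (0 : ℝ) < p := by linarith
      rw [sub_nonneg]
      exact one_div_le_one_div_of_le h1 (by linarith)
    refine (Finset.sum_le_sum_of_subset_of_nonneg hsub hnn).trans ?_
    have key : ∀ K : ℕ, ∑ p ∈ Finset.Icc 2 (K + 2), (1 / ((p : ℝ) - 1) - 1 / (p : ℝ)) =
        1 - 1 / ((K : ℝ) + 2) := by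
      intro K
      induction K with
      | zero => norm_num
      | succ K ih =>
          rw [show K + 1 + 2 = (K + 2) + 1 by ring, Finset.sum_Icc_succ_top (by omega), ih]
          push_cast
          have : ((K : ℝ) + 2 + 1 - 1) = (K : ℝ) + 2 := by ring
          rw [this]
          ring
    rw [key M]
    have : (0 : ℝ) < 1 / ((M : ℝ) + 2) := by positivity
    linarith
  have := htel P (fun p hp => (hP p hp).two_le)
  linarith

end Fermat.Agent.DS
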