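/-
Program DS, package F (Rankin bound), leaf F4: formal consequences of the Hecke relations.
-/
import Mathlib
import Fermat.Agent.DS.F.Defs

set_option autoImplicit false

namespace Fermat.Agent.DS

variable {N : ℕ} {e a : ℕ → ℂ}

/-- F4c.  The three term recursion along powers of a good prime. -/
theorem dsf_prime_pow_rec (h : DsfHecke N e a) {p : ℕ} (hp : p.Prime)
    (hpN : ¬ p ∣ N) (m : ℕ) : a (p ^ (m + 2)) = a p * a (p ^ (m + 1)) - e p * a (p ^ m) := by
  have := h.rel p hp hpN (p ^ (m + 1))
  have hdvd : p ∣ p ^ (m + 1) := dvd_pow_self p (Nat.succ_ne_zero m)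
  rw [if_pos hdvd, pow_succ p m, Nat.mul_div_cancel _ hp.pos, ← pow_succ, ← pow_succ'] at this
  rw [← this]; ring

/-- F4a.  `a (p^r n) = a (p^r) a n` for `p ∤ N n`. -/
theorem dsf_mul_prime_pow (h : DsfHecke N e a) {p : ℕ} (hp : p.Prime)
    (hpN : ¬ p ∣ N) (r : ℕ) {n : ℕ} (hpn : ¬ p ∣ n) : a (p ^ r * n) = a (p ^ r) * a n := by
  induction r using Nat.strong_induction_on with
  | _ r ih =>
    rcases r with _ | _ | r
    · simp [h.one]
    · have := h.rel p hp hpN n
      rw [if_neg hpn] at this
      simpa using this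
    · have hrel := h.rel p hp hpN (p ^ (r + 1) * n)
      have hdvd : p ∣ p ^ (r + 1) * n := Dvd.dvd.mul_right (dvd_pow_self p (Nat.succ_ne_zero r)) n
      have hdiv : p ^ (r + 1) * n / p = p ^ r * n := by
        rw [pow_succ', mul_assoc, Nat.mul_div_cancel_left _ hp.pos]
      rw [if_pos hdvd, hdiv, ← mul_assoc, ← pow_succ'] at hrel
      rw [ih (r + 1) (by omega), ih r (by omega)] at hrel
      rw [dsf_prime_pow_rec h hp hpN r]
      linear_combination hrel

/-- F4b.  Multiplicativity: `a (m n) = a m * a n` for `m` prime to `n N`. -/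
theorem dsf_mul_coprime (h : DsfHecke N e a) {m n : ℕ}
    (hmn : m.Coprime n) (hm : m.Coprime N) : a (m * n) = a m * a n := by
  induction m using Nat.recOnPosPrimePosCoprime generalizing n with
  | zero =>
      -- `0` coprime to `n` and `N` forces `n = 1`
      have hn : n = 1 := by simpa using hmn
      subst hn
      simp [h.one]
  | one => simp [h.one]
  | prime_pow p r hp hr =>
      have hpn : ¬ p ∣ n := by
        intro hd
        have : p ∣ Nat.gcd (p ^ r) n := Nat.dvd_gcd (dvd_pow_self p hr.ne') hd
        rw [hmn] at this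
        exact hp.one_lt.ne' (Nat.dvd_one.mp this)
      have hpN : ¬ p ∣ N := by
        intro hd
        have : p ∣ Nat.gcd (p ^ r) N := Nat.dvd_gcd (dvd_pow_self p hr.ne') hd
        rw [hm] at this
        exact hp.one_lt.ne' (Nat.dvd_one.mp this)
      exact dsf_mul_prime_pow h hp hpN r hpn
  | coprime x y hx hy hxy ihx ihy =>
      have hxn : x.Coprime n := Nat.Coprime.coprime_mul_right hmn
      have hyn : y.Coprime n := Nat.Coprime.coprime_mul_left hmn
      have hxN : x.Coprime N := Nat.Coprime.coprime_mul_right hm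
      have hyN : y.Coprime N := Nat.Coprime.coprime_mul_left hm
      have hxyn : x.Coprime (y * n) := Nat.Coprime.mul_right hxy hxn
      rw [mul_assoc, ihx hxyn hxN, ihy hyn hyN, ihx hxy hxN]
      ring

end Fermat.Agent.DS
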