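/-
Program DS, package F (Rankin bound), leaf F5a: ballot-number expansion of `c^m` in the
Chebyshev-like sequence `u₀ = 1, u₁ = c, u_{m+2} = c u_{m+1} - e u_m`.
-/
import Mathlib

set_option autoImplicit false

namespace Fermat.Agent.DS

/-- Ballot numbers: `dsfMu m j` is the coefficient of `e^j u_{m-2j}` in `c^m`. -/
def dsfMu : ℕ → ℕ → ℕ
  | 0, j => if j = 0 then 1 else 0
  | (m + 1), j => (if 2 * j ≤ m then dsfMu m j else 0) +
      (if 1 ≤ j ∧ 2 * j ≤ m + 1 then dsfMu m (j - 1) else 0)

theorem dsfMu_eq_zero_of_lt : ∀ (m j : ℕ), m < 2 * j → dsfMu m j = 0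
  | 0, j, h => by
      have : j ≠ 0 := by omega
      simp [dsfMu, this]
  | (m + 1), j, h => by
      have h1 : ¬ 2 * j ≤ m := by omega
      have h2 : ¬ (1 ≤ j ∧ 2 * j ≤ m + 1) := by omega
      simp [dsfMu, h1, h2]

theorem dsfMu_le_choose : ∀ (m j : ℕ), dsfMu m j ≤ m.choose j
  | 0, j => by
      by_cases hj : j = 0
      · simp [dsfMu, hj]
      · simp [dsfMu, hj]
  | (m + 1), j => by
      rcases j with _ | j
      · simp only [dsfMu, Nat.mul_zero, Nat.zero_le, if_true, Nat.choose_zero_right]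
        have := dsfMu_le_choose m 0
        simp at this
        simp
        exact this
      · have h1 := dsfMu_le_choose m (j + 1)
        have h2 := dsfMu_le_choose m j
        rw [Nat.choose_succ_succ']
        simp only [dsfMu, Nat.add_sub_cancel]
        have a1 : (if 2 * (j + 1) ≤ m then dsfMu m (j + 1) else 0) ≤ m.choose (j + 1) := by
          split_ifs
          · exact h1
          · exact Nat.zero_le _
        have a2 : (if 1 ≤ j + 1 ∧ 2 * (j + 1) ≤ m + 1 then dsfMu m j else 0) ≤ m.choose j := by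
          split_ifs
          · exact h2
          · exact Nat.zero_le _
        omega

end Fermat.Agent.DS

namespace Fermat.Agent.DS

/-- The sequence relation in "multiplication by `c`" form, valid when `2 j ≤ m`. -/
private theorem dsf_c_mul_u (c e : ℂ) (u : ℕ → ℂ) (h1 : u 1 = c) (h0 : u 0 = 1)
    (hrec : ∀ m, u (m + 2) = c * u (m + 1) - e * u m) (k : ℕ) :
    c * u k = u (k + 1) + (if 1 ≤ k then e * u (k - 1) else 0) := by
  rcases k with _ | k
  · simp [h0, h1]
  · have := hrec k
    simp only [Nat.le_add_left, if_true, Nat.add_sub_cancel]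
    rw [this]; ring

/-- Expansion over the padded range `j < m + 1`. -/
theorem dsf_pow_eq_sum_padded (c e : ℂ) (u : ℕ → ℂ) (h0 : u 0 = 1) (h1 : u 1 = c)
    (hrec : ∀ m, u (m + 2) = c * u (m + 1) - e * u m) :
    ∀ m : ℕ, c ^ m = ∑ j ∈ Finset.range (m + 1), (dsfMu m j : ℂ) * e ^ j * u (m - 2 * j)
  | 0 => by simp [dsfMu, h0]
  | (m + 1) => by
      have ih := dsf_pow_eq_sum_padded c e u h0 h1 hrec m
      rw [pow_succ, ih, Finset.sum_mul]
      -- termwise identity
      have hterm : ∀ j ∈ Finset.range (m + 1),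
          (dsfMu m j : ℂ) * e ^ j * u (m - 2 * j) * c =
            ((if 2 * j ≤ m then dsfMu m j else 0 : ℕ) : ℂ) * e ^ j * u (m + 1 - 2 * j) +
            ((if 1 ≤ j + 1 ∧ 2 * (j + 1) ≤ m + 1 then dsfMu m j else 0 : ℕ) : ℂ) * e ^ (j + 1) *
              u (m + 1 - 2 * (j + 1)) := by
        intro j _
        by_cases hj : 2 * j ≤ m
        · have hcu := dsf_c_mul_u c e u h1 h0 hrec (m - 2 * j)
          have e1 : m - 2 * j + 1 = m + 1 - 2 * j := by omega
          by_cases hj' : 1 ≤ m - 2 * j
          · have hc2 : 1 ≤ j + 1 ∧ 2 * (j + 1) ≤ m + 1 := by omega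
            have e2 : m - 2 * j - 1 = m + 1 - 2 * (j + 1) := by omega
            simp only [hj, hc2, if_true, and_self]
            rw [mul_assoc _ _ c, mul_comm (u _) c, hcu, if_pos hj', e1, e2]
            ring
          · have hc2 : ¬ (1 ≤ j + 1 ∧ 2 * (j + 1) ≤ m + 1) := by omega
            simp only [hj, hc2, if_true, if_false, Nat.cast_zero, zero_mul, add_zero]
            rw [mul_assoc _ _ c, mul_comm (u _) c, hcu, if_neg hj', e1]
            ring
        · have hz : dsfMu m j = 0 := dsfMu_eq_zero_of_lt m j (by omega)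
          have hc2 : ¬ (1 ≤ j + 1 ∧ 2 * (j + 1) ≤ m + 1) := by omega
          simp [hz, hj]
      rw [Finset.sum_congr rfl hterm, Finset.sum_add_distrib]
      -- right-hand side
      have hR : ∀ j, (dsfMu (m + 1) j : ℂ) * e ^ j * u (m + 1 - 2 * j) =
          ((if 2 * j ≤ m then dsfMu m j else 0 : ℕ) : ℂ) * e ^ j * u (m + 1 - 2 * j) +
          ((if 1 ≤ j ∧ 2 * j ≤ m + 1 then dsfMu m (j - 1) else 0 : ℕ) : ℂ) * e ^ j *
            u (m + 1 - 2 * j) := by
        intro j
        rw [← add_mul, ← add_mul, ← Nat.cast_add]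
        rfl
      rw [Finset.sum_congr rfl (fun j _ => hR j), Finset.sum_add_distrib]
      congr 1
      · rw [Finset.sum_range_succ _ (m + 1)]
        have : ¬ 2 * (m + 1) ≤ m := by omega
        simp [this]
      · rw [Finset.sum_range_succ' _ (m + 1)]
        simp

/-- F5a.  Ballot-number expansion. -/
theorem dsf_ballot_expansion (c e : ℂ) (u : ℕ → ℂ) (h0 : u 0 = 1) (h1 : u 1 = c)
    (hrec : ∀ m, u (m + 2) = c * u (m + 1) - e * u m) (m : ℕ) :
    c ^ m = ∑ j ∈ Finset.range (m / 2 + 1), (dsfMu m j : ℂ) * e ^ j * u (m - 2 * j) := by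
  rw [dsf_pow_eq_sum_padded c e u h0 h1 hrec m]
  symm
  apply Finset.sum_subset
  · intro j hj
    simp only [Finset.mem_range] at hj ⊢
    have := Nat.div_le_self m 2
    omega
  · intro j _ hj
    simp only [Finset.mem_range, not_lt] at hj
    have : m < 2 * j := by
      have := Nat.lt_div_mul_add (a := m) (b := 2) (by norm_num)
      omega
    simp [dsfMu_eq_zero_of_lt m j this]

end Fermat.Agent.DS

namespace Fermat.Agent.DS

private theorem dsf_four_pow_le_factorial : ∀ m : ℕ, 9 ≤ m → 4 ^ m ≤ m.factorial := by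
  intro m hm
  induction m, hm using Nat.le_induction with
  | base => decide
  | succ n hn ih =>
      rw [pow_succ, Nat.factorial_succ]
      calc 4 ^ n * 4 ≤ n.factorial * (n + 1) := Nat.mul_le_mul ih (by omega)
        _ = (n + 1) * n.factorial := Nat.mul_comm _ _

private theorem dsf_sum_sq_small : ∀ m : ℕ, m < 9 →
    ∑ j ∈ Finset.range (m / 2 + 1), (dsfMu m j) ^ 2 ≤ m.factorial := by
  decide

/-- F5a'.  `∑_j μ_{m,j}² ≤ m!`. -/
theorem dsf_ballot_sq_le (m : ℕ) :
    ∑ j ∈ Finset.range (m / 2 + 1), (dsfMu m j) ^ 2 ≤ m.factorial := by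
  by_cases hm : m < 9
  · exact dsf_sum_sq_small m hm
  · have h9 : 9 ≤ m := by omega
    calc ∑ j ∈ Finset.range (m / 2 + 1), (dsfMu m j) ^ 2
        ≤ ∑ j ∈ Finset.range (m / 2 + 1), (m.choose j) ^ 2 :=
          Finset.sum_le_sum fun j _ => Nat.pow_le_pow_left (dsfMu_le_choose m j) 2
      _ ≤ ∑ j ∈ Finset.range (m + 1), (m.choose j) ^ 2 := by
          apply Finset.sum_le_sum_of_subset
          intro j hj
          simp only [Finset.mem_range] at hj ⊢
          have := Nat.div_le_self m 2
          omega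
      _ = (2 * m).choose m := Nat.sum_range_choose_sq m
      _ = m.centralBinom := (Nat.centralBinom_eq_two_mul_choose m).symm
      _ ≤ 4 ^ m := Nat.centralBinom_le_four_pow m
      _ ≤ m.factorial := dsf_four_pow_le_factorial m h9

end Fermat.Agent.DS
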