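/-
Program DS, package F (Rankin bound), leaf F5: the local factor inequality
`(1 - X²) exp(|c|² X) ≤ ∑_m |u_m|² X^m`.
-/
import Mathlib
import Fermat.Agent.DS.F.Ballot

set_option autoImplicit false

namespace Fermat.Agent.DS

/-- F5b.  Coefficientwise bound: `|c|^{2m} / m! ≤ ∑_{j ≤ m/2} |u_{m-2j}|²` when `|e| = 1`. -/
theorem dsf_coeff_bound (c e : ℂ) (he : ‖e‖ = 1) (u : ℕ → ℂ) (h0 : u 0 = 1) (h1 : u 1 = c)
    (hrec : ∀ m, u (m + 2) = c * u (m + 1) - e * u m) (m : ℕ) :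
    ‖c‖ ^ (2 * m) / (m.factorial : ℝ) ≤ ∑ j ∈ Finset.range (m / 2 + 1), ‖u (m - 2 * j)‖ ^ 2 := by
  have hexp := dsf_ballot_expansion c e u h0 h1 hrec m
  have hfac : (0 : ℝ) < m.factorial := by exact_mod_cast m.factorial_pos
  rw [div_le_iff₀ hfac]
  -- ‖c^m‖ ≤ ∑ μ_j ‖u‖
  have hnorm : ‖c‖ ^ m ≤ ∑ j ∈ Finset.range (m / 2 + 1), (dsfMu m j : ℝ) * ‖u (m - 2 * j)‖ := by
    rw [← norm_pow, hexp]
    refine (norm_sum_le _ _).trans (le_of_eq ?_)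
    refine Finset.sum_congr rfl fun j _ => ?_
    rw [norm_mul, norm_mul, norm_pow, he, one_pow, mul_one, Complex.norm_natCast]
  have hcs := Finset.sum_mul_sq_le_sq_mul_sq (Finset.range (m / 2 + 1))
    (fun j => (dsfMu m j : ℝ)) (fun j => ‖u (m - 2 * j)‖)
  have hsq : (∑ j ∈ Finset.range (m / 2 + 1), (dsfMu m j : ℝ) ^ 2) ≤ (m.factorial : ℝ) := by
    have := dsf_ballot_sq_le m
    exact_mod_cast this
  have hpos : 0 ≤ ∑ j ∈ Finset.range (m / 2 + 1), ‖u (m - 2 * j)‖ ^ 2 :=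
    Finset.sum_nonneg fun j _ => by positivity
  calc ‖c‖ ^ (2 * m) = (‖c‖ ^ m) ^ 2 := by rw [← pow_mul, mul_comm]
    _ ≤ (∑ j ∈ Finset.range (m / 2 + 1), (dsfMu m j : ℝ) * ‖u (m - 2 * j)‖) ^ 2 := by
        apply pow_le_pow_left₀ (by positivity) hnorm
    _ ≤ (∑ j ∈ Finset.range (m / 2 + 1), (dsfMu m j : ℝ) ^ 2) *
          ∑ j ∈ Finset.range (m / 2 + 1), ‖u (m - 2 * j)‖ ^ 2 := hcs
    _ ≤ (m.factorial : ℝ) * ∑ j ∈ Finset.range (m / 2 + 1), ‖u (m - 2 * j)‖ ^ 2 :=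
        mul_le_mul_of_nonneg_right hsq hpos
    _ = (∑ j ∈ Finset.range (m / 2 + 1), ‖u (m - 2 * j)‖ ^ 2) * (m.factorial : ℝ) := mul_comm _ _

end Fermat.Agent.DS

namespace Fermat.Agent.DS

/-- `t_m = ∑_{j ≤ m/2} |u_{m-2j}|²`. -/
private noncomputable def dsfT (u : ℕ → ℂ) (m : ℕ) : ℝ :=
  ∑ j ∈ Finset.range (m / 2 + 1), ‖u (m - 2 * j)‖ ^ 2

private theorem dsfT_zero (u : ℕ → ℂ) : dsfT u 0 = ‖u 0‖ ^ 2 := by
  simp [dsfT]

private theorem dsfT_one (u : ℕ → ℂ) : dsfT u 1 = ‖u 1‖ ^ 2 := by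
  simp [dsfT]

private theorem dsfT_add_two (u : ℕ → ℂ) (m : ℕ) :
    dsfT u (m + 2) = dsfT u m + ‖u (m + 2)‖ ^ 2 := by
  unfold dsfT
  have h1 : (m + 2) / 2 + 1 = (m / 2 + 1) + 1 := by omega
  rw [h1, Finset.sum_range_succ' _ (m / 2 + 1)]
  have h2 : ∀ j, m + 2 - 2 * (j + 1) = m - 2 * j := by intro j; omega
  simp only [h2, Nat.mul_zero, Nat.sub_zero]

/-- Telescoping identity: `(1 - X²) ∑_{m<M} t_m X^m = ∑_{k<M+2} w_k - t_M X^M - t_{M+1} X^{M+1}`. -/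
private theorem dsf_telescope (u : ℕ → ℂ) (X : ℝ) (M : ℕ) :
    (1 - X ^ 2) * ∑ m ∈ Finset.range M, dsfT u m * X ^ m =
      ∑ k ∈ Finset.range (M + 2), ‖u k‖ ^ 2 * X ^ k - dsfT u M * X ^ M
        - dsfT u (M + 1) * X ^ (M + 1) := by
  induction M with
  | zero =>
      simp [Finset.sum_range_succ, dsfT_zero, dsfT_one]
  | succ M ih =>
      rw [Finset.sum_range_succ, mul_add, ih, Finset.sum_range_succ _ (M + 2), dsfT_add_two]
      ring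

/-- F5.  Local factor inequality: `(1 - X²) exp(|c|² X) ≤ ∑_m |u_m|² X^m` for `0 ≤ X < 1`. -/
theorem dsf_local_factor (c e : ℂ) (he : ‖e‖ = 1) (u : ℕ → ℂ) (h0 : u 0 = 1) (h1 : u 1 = c)
    (hrec : ∀ m, u (m + 2) = c * u (m + 1) - e * u m) (X : ℝ) (hX0 : 0 ≤ X) (hX1 : X < 1)
    (hs : Summable fun m : ℕ => ‖u m‖ ^ 2 * X ^ m) :
    (1 - X ^ 2) * Real.exp (‖c‖ ^ 2 * X) ≤ ∑' m : ℕ, ‖u m‖ ^ 2 * X ^ m := by
  have hX2 : 0 < 1 - X ^ 2 := by nlinarith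
  set S := ∑' m : ℕ, ‖u m‖ ^ 2 * X ^ m with hS
  have hw : ∀ k, 0 ≤ ‖u k‖ ^ 2 * X ^ k := fun k => by positivity
  have hT : ∀ m, 0 ≤ dsfT u m * X ^ m := fun m => by
    unfold dsfT
    exact mul_nonneg (Finset.sum_nonneg fun j _ => by positivity) (by positivity)
  -- partial sums of the exponential series
  have hpart : ∀ M : ℕ,
      ∑ m ∈ Finset.range M, (‖c‖ ^ 2 * X) ^ m / (m.factorial : ℝ) ≤ S / (1 - X ^ 2) := by
    intro M
    rw [le_div_iff₀ hX2, mul_comm]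
    have h1' : ∑ m ∈ Finset.range M, (‖c‖ ^ 2 * X) ^ m / (m.factorial : ℝ) ≤
        ∑ m ∈ Finset.range M, dsfT u m * X ^ m := by
      refine Finset.sum_le_sum fun m _ => ?_
      have := dsf_coeff_bound c e he u h0 h1 hrec m
      have hx : 0 ≤ X ^ m := by positivity
      calc (‖c‖ ^ 2 * X) ^ m / (m.factorial : ℝ)
          = ‖c‖ ^ (2 * m) / (m.factorial : ℝ) * X ^ m := by rw [mul_pow, ← pow_mul]; ring
        _ ≤ dsfT u m * X ^ m := mul_le_mul_of_nonneg_right this hx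
    calc (1 - X ^ 2) * ∑ m ∈ Finset.range M, (‖c‖ ^ 2 * X) ^ m / (m.factorial : ℝ)
        ≤ (1 - X ^ 2) * ∑ m ∈ Finset.range M, dsfT u m * X ^ m :=
          mul_le_mul_of_nonneg_left h1' hX2.le
      _ = ∑ k ∈ Finset.range (M + 2), ‖u k‖ ^ 2 * X ^ k - dsfT u M * X ^ M
            - dsfT u (M + 1) * X ^ (M + 1) := dsf_telescope u X M
      _ ≤ ∑ k ∈ Finset.range (M + 2), ‖u k‖ ^ 2 * X ^ k := by
          have := hT M; have := hT (M + 1); linarith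
      _ ≤ S := hs.sum_le_tsum _ (fun k _ => hw k)
  have hexp : Real.exp (‖c‖ ^ 2 * X) ≤ S / (1 - X ^ 2) := by
    have hsum := NormedSpace.expSeries_div_hasSum_exp (𝔸 := ℝ) (‖c‖ ^ 2 * X)
    rw [← Real.exp_eq_exp_ℝ] at hsum
    rw [← hsum.tsum_eq]
    apply Real.tsum_le_of_sum_range_le
    · intro n; positivity
    · exact hpart
  calc (1 - X ^ 2) * Real.exp (‖c‖ ^ 2 * X) ≤ (1 - X ^ 2) * (S / (1 - X ^ 2)) :=
        mul_le_mul_of_nonneg_left hexp hX2.le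
    _ = S := by field_simp

end Fermat.Agent.DS
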