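/-
Program DS, package F (Rankin bound), leaf F7a: the abstract Rankin bound for a sequence
satisfying the formal Hecke relations and Hecke's mean square bound.
-/
import Mathlib
import Fermat.Agent.DS.F.Defs
import Fermat.Agent.DS.F.Hecke
import Fermat.Agent.DS.F.Local
import Fermat.Agent.DS.F.Euler
import Fermat.Agent.DS.F.Abel

set_option autoImplicit false

namespace Fermat.Agent.DS

/-- The coprime-to-`N` part of the Dirichlet series term. -/
private noncomputable def dsfB (N : ℕ) (a : ℕ → ℂ) (s : ℝ) (n : ℕ) : ℝ :=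
  if n.Coprime N then ‖a n‖ ^ 2 * (n : ℝ) ^ (-s) else 0

private theorem dsfB_nonneg (N : ℕ) (a : ℕ → ℂ) (s : ℝ) (n : ℕ) : 0 ≤ dsfB N a s n := by
  unfold dsfB
  split_ifs
  · exact mul_nonneg (by positivity) (Real.rpow_nonneg (Nat.cast_nonneg n) _)
  · exact le_refl _

private theorem dsfB_le (N : ℕ) (a : ℕ → ℂ) (s : ℝ) (n : ℕ) :
    dsfB N a s n ≤ ‖a n‖ ^ 2 * (n : ℝ) ^ (-s) := by
  unfold dsfB
  split_ifs
  · exact le_refl _
  · exact mul_nonneg (by positivity) (Real.rpow_nonneg (Nat.cast_nonneg n) _)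

private theorem dsfB_one {N : ℕ} {e a : ℕ → ℂ} (h : DsfHecke N e a) (s : ℝ) :
    dsfB N a s 1 = 1 := by
  simp [dsfB, h.one]

private theorem dsfB_mul {N : ℕ} {e a : ℕ → ℂ} (h : DsfHecke N e a) (s : ℝ) (m n : ℕ)
    (hmn : m.Coprime n) : dsfB N a s (m * n) = dsfB N a s m * dsfB N a s n := by
  unfold dsfB
  by_cases hm : m.Coprime N
  · by_cases hn : n.Coprime N
    · have hmnN : (m * n).Coprime N := Nat.Coprime.mul_left hm hn
      rw [if_pos hmnN, if_pos hm, if_pos hn, dsf_mul_coprime h hmn hm, norm_mul, Nat.cast_mul,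
        Real.mul_rpow (Nat.cast_nonneg m) (Nat.cast_nonneg n)]
      ring
    · have hmnN : ¬ (m * n).Coprime N := fun hc => hn (Nat.Coprime.coprime_mul_left hc)
      rw [if_neg hmnN, if_neg hn, mul_zero]
  · have hmnN : ¬ (m * n).Coprime N := fun hc => hm (Nat.Coprime.coprime_mul_right hc)
    rw [if_neg hmnN, if_neg hm, zero_mul]

private theorem dsfB_prime_pow {N : ℕ} (a : ℕ → ℂ) (s : ℝ) {p : ℕ} (hp : p.Prime)
    (hpN : ¬ p ∣ N) (m : ℕ) :
    dsfB N a s (p ^ m) = ‖a (p ^ m)‖ ^ 2 * ((p : ℝ) ^ (-s)) ^ m := by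
  unfold dsfB
  have hc : (p ^ m).Coprime N := Nat.Coprime.pow_left m ((Nat.Prime.coprime_iff_not_dvd hp).mpr hpN)
  rw [if_pos hc, Nat.cast_pow, ← Real.rpow_natCast ((p : ℝ) ^ (-s)) m,
    ← Real.rpow_mul (Nat.cast_nonneg p), ← Real.rpow_natCast (p : ℝ) m,
    ← Real.rpow_mul (Nat.cast_nonneg p), mul_comm (-s) (m : ℝ)]

/-- F7 (abstract Rankin bound). -/
theorem dsf_rankin_abstract (N : ℕ) (e a : ℕ → ℂ) (h : DsfHecke N e a) (C : ℝ)
    (hC : ∀ x : ℕ, ∑ n ∈ Finset.range (x + 1), ‖a n‖ ^ 2 ≤ C * x) :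
    ∃ C' : ℝ, ∀ s : ℝ, 1 < s → s ≤ 2 →
      Summable (fun p : DsfPrime N => ‖a p‖ ^ 2 * ((p : ℕ) : ℝ) ^ (-s)) ∧
        ∑' p : DsfPrime N, ‖a p‖ ^ 2 * ((p : ℕ) : ℝ) ^ (-s) ≤ Real.log (1 / (s - 1)) + C' := by
  have hC1 : 1 ≤ C := by
    have := hC 1
    simp [Finset.sum_range_succ, h.one] at this
    nlinarith [sq_nonneg ‖a 0‖]
  refine ⟨Real.log (2 * C) + 2, fun s hs1 hs2 => ?_⟩
  have hs0 : 0 < s - 1 := by linarith
  -- the full Dirichlet series
  obtain ⟨hDsum, hDle⟩ := dsf_dirichlet_bound (fun n => ‖a n‖ ^ 2) (fun n => by positivity) C hC s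
    hs1 hs2
  have hBsum : Summable (dsfB N a s) :=
    Summable.of_nonneg_of_le (dsfB_nonneg N a s) (dsfB_le N a s) hDsum
  have hBle : ∑' n, dsfB N a s n ≤ 2 * C / (s - 1) :=
    (Summable.tsum_le_tsum (dsfB_le N a s) hBsum hDsum).trans hDle
  -- key bound on finite sets of good primes
  have hfin : ∀ P : Finset ℕ, (∀ p ∈ P, p.Prime ∧ ¬ p ∣ N) →
      ∑ p ∈ P, ‖a p‖ ^ 2 * (p : ℝ) ^ (-s) ≤ Real.log (1 / (s - 1)) + (Real.log (2 * C) + 2) := by
    intro P hP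
    have hPp : ∀ p ∈ P, p.Prime := fun p hp => (hP p hp).1
    have heul := dsf_euler_lower (dsfB N a s) (dsfB_nonneg N a s) (dsfB_one h s)
      (dsfB_mul h s) hBsum P hPp
    -- local factors
    have hloc : ∀ p ∈ P, (1 - ((p : ℝ) ^ (-s)) ^ 2) * Real.exp (‖a p‖ ^ 2 * (p : ℝ) ^ (-s)) ≤
        ∑' m : ℕ, dsfB N a s (p ^ m) := by
      intro p hp
      obtain ⟨hpp, hpN⟩ := hP p hp
      have hp0 : (0 : ℝ) < p := by exact_mod_cast hpp.pos
      have hp1 : (1 : ℝ) < p := by exact_mod_cast hpp.one_lt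
      have hX0 : 0 ≤ (p : ℝ) ^ (-s) := Real.rpow_nonneg hp0.le _
      have hX1 : (p : ℝ) ^ (-s) < 1 := Real.rpow_lt_one_of_one_lt_of_neg hp1 (by linarith)
      have hfun : (fun m : ℕ => dsfB N a s (p ^ m)) =
          fun m : ℕ => ‖a (p ^ m)‖ ^ 2 * ((p : ℝ) ^ (-s)) ^ m :=
        funext fun m => dsfB_prime_pow a s hpp hpN m
      have hsumm : Summable fun m : ℕ => ‖a (p ^ m)‖ ^ 2 * ((p : ℝ) ^ (-s)) ^ m := by
        rw [← hfun]
        exact hBsum.comp_injective (Nat.pow_right_injective hpp.two_le)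
      rw [hfun]
      have := dsf_local_factor (a p) (e p) (h.norm_e p hpp hpN) (fun m => a (p ^ m))
        (by simp [h.one]) (by simp) (fun m => dsf_prime_pow_rec h hpp hpN m)
        ((p : ℝ) ^ (-s)) hX0 hX1 hsumm
      exact this
    have hLpos : ∀ p ∈ P, 0 < ∑' m : ℕ, dsfB N a s (p ^ m) := by
      intro p hp
      obtain ⟨hpp, hpN⟩ := hP p hp
      have hp1 : (1 : ℝ) < p := by exact_mod_cast hpp.one_lt
      have hX0 : 0 ≤ (p : ℝ) ^ (-s) := Real.rpow_nonneg (by linarith) _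
      have hX1 : (p : ℝ) ^ (-s) < 1 := Real.rpow_lt_one_of_one_lt_of_neg hp1 (by linarith)
      refine lt_of_lt_of_le ?_ (hloc p hp)
      have : 0 < 1 - ((p : ℝ) ^ (-s)) ^ 2 := by nlinarith
      exact mul_pos this (Real.exp_pos _)
    -- termwise: a_p² X ≤ log L_p - log(1 - X²)
    have hterm : ∀ p ∈ P, ‖a p‖ ^ 2 * (p : ℝ) ^ (-s) ≤
        Real.log (∑' m : ℕ, dsfB N a s (p ^ m)) + -Real.log (1 - ((p : ℝ) ^ (-s)) ^ 2) := by
      intro p hp
      obtain ⟨hpp, hpN⟩ := hP p hp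
      have hp1 : (1 : ℝ) < p := by exact_mod_cast hpp.one_lt
      have hX0 : 0 ≤ (p : ℝ) ^ (-s) := Real.rpow_nonneg (by linarith) _
      have hX1 : (p : ℝ) ^ (-s) < 1 := Real.rpow_lt_one_of_one_lt_of_neg hp1 (by linarith)
      have hpos : 0 < 1 - ((p : ℝ) ^ (-s)) ^ 2 := by nlinarith
      have := Real.log_le_log (mul_pos hpos (Real.exp_pos _)) (hloc p hp)
      rw [Real.log_mul hpos.ne' (Real.exp_pos _).ne', Real.log_exp] at this
      linarith
    have hcorr := dsf_log_correction P hPp s hs1.le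
    have hprodpos : 0 < ∏ p ∈ P, ∑' m : ℕ, dsfB N a s (p ^ m) := Finset.prod_pos hLpos
    have hlogprod : ∑ p ∈ P, Real.log (∑' m : ℕ, dsfB N a s (p ^ m)) ≤
        Real.log (2 * C / (s - 1)) := by
      rw [← Real.log_prod (fun p hp => (hLpos p hp).ne')]
      exact Real.log_le_log hprodpos (heul.trans hBle)
    have hsplit : Real.log (2 * C / (s - 1)) = Real.log (1 / (s - 1)) + Real.log (2 * C) := by
      rw [show 2 * C / (s - 1) = 1 / (s - 1) * (2 * C) by ring,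
        Real.log_mul (one_div_pos.mpr hs0).ne' (by linarith)]
    calc ∑ p ∈ P, ‖a p‖ ^ 2 * (p : ℝ) ^ (-s)
        ≤ ∑ p ∈ P, (Real.log (∑' m : ℕ, dsfB N a s (p ^ m)) +
            -Real.log (1 - ((p : ℝ) ^ (-s)) ^ 2)) := Finset.sum_le_sum hterm
      _ = ∑ p ∈ P, Real.log (∑' m : ℕ, dsfB N a s (p ^ m)) +
            ∑ p ∈ P, -Real.log (1 - ((p : ℝ) ^ (-s)) ^ 2) := Finset.sum_add_distrib
      _ ≤ Real.log (2 * C / (s - 1)) + 2 := add_le_add hlogprod hcorr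
      _ = Real.log (1 / (s - 1)) + (Real.log (2 * C) + 2) := by rw [hsplit]; ring
  -- transfer to the subtype
  have hnonneg : (0 : DsfPrime N → ℝ) ≤ fun p : DsfPrime N => ‖a p‖ ^ 2 * ((p : ℕ) : ℝ) ^ (-s) :=
    fun p => mul_nonneg (by positivity) (Real.rpow_nonneg (Nat.cast_nonneg _) _)
  have hall : ∀ Q : Finset (DsfPrime N),
      ∑ p ∈ Q, ‖a p‖ ^ 2 * ((p : ℕ) : ℝ) ^ (-s) ≤
        Real.log (1 / (s - 1)) + (Real.log (2 * C) + 2) := by
    intro Q
    have := hfin (Q.map (Function.Embedding.subtype _)) (by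
      intro p hp
      rw [Finset.mem_map] at hp
      obtain ⟨q, _, rfl⟩ := hp
      exact q.2)
    rwa [Finset.sum_map] at this
  exact ⟨summable_of_sum_le hnonneg hall, Real.tsum_le_of_sum_le hnonneg hall⟩

end Fermat.Agent.DS
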