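/-
Program DS, package F (Rankin bound), leaves F1 + F2: Bessel's inequality on a horizontal line and
Hecke's mean square bound `∑_{n ≤ x} |a_n|² ≤ C x` for a weight one cusp form on `Γ₁(N)`.
-/
import Mathlib
import Fermat.Prelude.Def_FLTPrelim_Modularity

set_option autoImplicit false

open CongruenceSubgroup UpperHalfPlane MeasureTheory

namespace Fermat.Agent.DS

theorem dsf_one_mem_strictPeriods_Gamma1 (N : ℕ) :
    (1 : ℝ) ∈ (Subgroup.map (Matrix.SpecialLinearGroup.mapGL ℝ)
      (CongruenceSubgroup.Gamma1 N)).strictPeriods := by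
  have hT : ModularGroup.T ∈ CongruenceSubgroup.Gamma1 N := by
    rw [CongruenceSubgroup.Gamma1_mem]
    simp [ModularGroup.T]
  have h := Subgroup.strictPeriods_eq_zmultiples_one_of_T_mem hT
  rw [h]
  exact AddSubgroup.mem_zmultiples (1 : ℝ)

/-- The restriction of `f` to the horizontal line of height `y`. -/
noncomputable def dsfLine (f : ℍ → ℂ) (y : ℝ) (x : ℝ) : ℂ :=
  f (UpperHalfPlane.ofComplex ((x : ℂ) + y * Complex.I))

variable {N : ℕ}

theorem dsfLine_continuous (f : CuspForm (Gamma1 N) 1) (y : ℝ) (hy : 0 < y) :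
    Continuous (dsfLine f y) := by
  have hf : Continuous (f : ℍ → ℂ) := (ModularFormClass.holo f).continuous
  have hline : Continuous fun x : ℝ => (⟨(x : ℂ) + y * Complex.I, by simpa using hy⟩ : ℍ) := by
    rw [UpperHalfPlane.isEmbedding_coe.continuous_iff]
    show Continuous fun x : ℝ => (x : ℂ) + y * Complex.I
    fun_prop
  have heq : dsfLine f y = fun x : ℝ =>
      f (⟨(x : ℂ) + y * Complex.I, by simpa using hy⟩ : ℍ) := by
    funext x
    unfold dsfLine
    rw [UpperHalfPlane.ofComplex_apply_of_im_pos (by simpa using hy)]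
  rw [heq]
  exact hf.comp hline

/-- The Fourier coefficients on `[0,1]` of the restriction to a horizontal line. -/
theorem dsf_fourierCoeffOn_line (f : CuspForm (Gamma1 N) 1) (y : ℝ) (hy : 0 < y) (n : ℕ) :
    fourierCoeffOn (zero_lt_one (α := ℝ)) (dsfLine f y) (n : ℤ) =
      ModularFormClass.qCoeff f n * Real.exp (-2 * Real.pi * n * y) := by
  have hΓ := dsf_one_mem_strictPeriods_Gamma1 N
  have hcoeff := ModularFormClass.qExpansion_coeff_eq_intervalIntegral (f := f) (h := 1)
    (Γ := Subgroup.map (Matrix.SpecialLinearGroup.mapGL ℝ) (CongruenceSubgroup.Gamma1 N))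
    (k := 1) one_pos hΓ n hy
  rw [fourierCoeffOn_eq_integral]
  unfold ModularFormClass.qCoeff
  rw [hcoeff]
  simp only [sub_zero, one_div, inv_one, one_smul, one_mul, Complex.ofReal_one]
  rw [← intervalIntegral.integral_mul_const]
  refine intervalIntegral.integral_congr fun x _ => ?_
  simp only [smul_eq_mul]
  rw [fourier_coe_apply]
  unfold dsfLine
  rw [UpperHalfPlane.ofComplex_apply_of_im_pos (by simpa using hy)]
  have hq : (Function.Periodic.qParam 1 ((x : ℂ) + y * Complex.I)) ^ n =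
      Complex.exp (2 * Real.pi * Complex.I * n * x) * Complex.exp (-2 * Real.pi * n * y) := by
    rw [Function.Periodic.qParam, ← Complex.exp_nat_mul, ← Complex.exp_add]
    congr 1
    have := Complex.I_mul_I
    push_cast
    linear_combination (2 * Real.pi * n * y : ℂ) * this
  rw [hq]
  have h1 : Complex.exp (2 * Real.pi * Complex.I * ((-(n : ℤ) : ℤ) : ℂ) * x / ((1 : ℝ) - 0 : ℝ)) =
      (Complex.exp (2 * Real.pi * Complex.I * n * x))⁻¹ := by
    rw [← Complex.exp_neg]
    congr 1
    push_cast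
    ring
  rw [h1]
  have hne1 : Complex.exp (2 * Real.pi * Complex.I * n * x) ≠ 0 := Complex.exp_ne_zero _
  have hne2 : Complex.exp (-2 * Real.pi * n * y) ≠ 0 := Complex.exp_ne_zero _
  have hreal : ((Real.exp (-2 * Real.pi * n * y) : ℝ) : ℂ) = Complex.exp (-2 * Real.pi * n * y) := by
    push_cast
    rfl
  rw [hreal]
  field_simp

end Fermat.Agent.DS

namespace Fermat.Agent.DS

variable {N : ℕ}

/-- A uniform bound on horizontal lines, from Mathlib's `CuspFormClass.exists_bound`. -/
theorem dsf_line_bound [NeZero N] (f : CuspForm (Gamma1 N) 1) :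
    ∃ C : ℝ, 0 ≤ C ∧ ∀ y : ℝ, 0 < y → ∀ x : ℝ, ‖dsfLine f y x‖ ^ 2 ≤ C / y := by
  obtain ⟨C, hC⟩ := CuspFormClass.exists_bound (k := 1)
    (Γ := Subgroup.map (Matrix.SpecialLinearGroup.mapGL ℝ) (CongruenceSubgroup.Gamma1 N)) f
  refine ⟨C ^ 2, sq_nonneg C, fun y hy x => ?_⟩
  unfold dsfLine
  rw [UpperHalfPlane.ofComplex_apply_of_im_pos (by simpa using hy)]
  have h := hC (⟨(x : ℂ) + y * Complex.I, by simpa using hy⟩ : ℍ)
  have him : (⟨(x : ℂ) + y * Complex.I, by simpa using hy⟩ : ℍ).im = y := by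
    simp [UpperHalfPlane.im]
  rw [him] at h
  have hpos : 0 < y ^ (((1 : ℤ) : ℝ) / 2) := Real.rpow_pos_of_pos hy _
  have hsq : (y ^ (((1 : ℤ) : ℝ) / 2)) ^ 2 = y := by
    rw [← Real.rpow_natCast, ← Real.rpow_mul hy.le]
    norm_num
  calc ‖f (⟨(x : ℂ) + y * Complex.I, by simpa using hy⟩ : ℍ)‖ ^ 2
      ≤ (C / y ^ (((1 : ℤ) : ℝ) / 2)) ^ 2 := by
        apply pow_le_pow_left₀ (norm_nonneg _) h
    _ = C ^ 2 / y := by rw [div_pow, hsq]

/-- F1 (Bessel on a horizontal line). -/
theorem dsf_bessel [NeZero N] (f : CuspForm (Gamma1 N) 1) (y : ℝ) (hy : 0 < y) (M : ℕ) :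
    ∑ n ∈ Finset.range (M + 1),
        ‖ModularFormClass.qCoeff f n‖ ^ 2 * Real.exp (-4 * Real.pi * n * y) ≤
      ∫ x in (0 : ℝ)..1, ‖dsfLine f y x‖ ^ 2 := by
  obtain ⟨C, _, hCb⟩ := dsf_line_bound f
  have hcont := dsfLine_continuous f y hy
  have hL2 : MemLp (dsfLine f y) 2 (volume.restrict (Set.Ioc (0 : ℝ) 1)) := by
    refine MemLp.of_bound hcont.aestronglyMeasurable (Real.sqrt (C / y)) ?_
    refine Filter.Eventually.of_forall fun x => ?_
    apply Real.le_sqrt_of_sq_le
    exact hCb y hy x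
  have hsum := hasSum_sq_fourierCoeffOn (zero_lt_one (α := ℝ)) hL2
  simp only [sub_zero, inv_one, one_smul] at hsum
  -- partial sum over the image of `range (M+1)` in `ℤ`
  have hinj : Function.Injective (fun n : ℕ => (n : ℤ)) := Nat.cast_injective
  have hle := sum_le_hasSum ((Finset.range (M + 1)).map ⟨fun n : ℕ => (n : ℤ), hinj⟩)
    (fun i _ => by positivity) hsum
  rw [Finset.sum_map] at hle
  refine le_trans (le_of_eq ?_) hle
  refine Finset.sum_congr rfl fun n _ => ?_
  simp only [Function.Embedding.coeFn_mk]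
  rw [dsf_fourierCoeffOn_line f y hy n, norm_mul, mul_pow, Complex.norm_real,
    Real.norm_of_nonneg (Real.exp_pos _).le, ← Real.exp_nat_mul]
  congr 2
  push_cast
  ring

/-- F2 (Hecke).  `∑_{n ≤ x} |a_n|² ≤ C x`. -/
theorem dsf_meanSquare (N : ℕ) [NeZero N] (f : CuspForm (Gamma1 N) 1) :
    ∃ C : ℝ, ∀ x : ℕ,
      ∑ n ∈ Finset.range (x + 1), ‖ModularFormClass.qCoeff f n‖ ^ 2 ≤ C * x := by
  obtain ⟨C, hC0, hCb⟩ := dsf_line_bound f
  refine ⟨Real.exp (4 * Real.pi) * C, fun x => ?_⟩
  rcases Nat.eq_zero_or_pos x with hx | hx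
  · subst hx
    have h0 : ModularFormClass.qCoeff f 0 = 0 := by
      unfold ModularFormClass.qCoeff
      exact CuspFormClass.qExpansion_coeff_zero (f := f) (h := 1)
        (Γ := Subgroup.map (Matrix.SpecialLinearGroup.mapGL ℝ) (CongruenceSubgroup.Gamma1 N))
        (k := 1) one_pos (dsf_one_mem_strictPeriods_Gamma1 N)
    simp [h0]
  · have hx0 : (0 : ℝ) < x := by exact_mod_cast hx
    have hy : (0 : ℝ) < 1 / x := by positivity
    have hB := dsf_bessel f (1 / x) hy x
    -- upper bound for the integral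
    have hint : ∫ t in (0 : ℝ)..1, ‖dsfLine f (1 / x) t‖ ^ 2 ≤ C * x := by
      have h1 := intervalIntegral.norm_integral_le_of_norm_le_const (a := (0 : ℝ)) (b := 1)
        (C := C / (1 / x)) (f := fun t => ‖dsfLine f (1 / (x : ℝ)) t‖ ^ 2) (fun t _ => by
          rw [Real.norm_of_nonneg (by positivity)]
          exact hCb (1 / x) hy t)
      have h2 : C / (1 / (x : ℝ)) * |(1 : ℝ) - 0| = C * x := by
        rw [sub_zero, abs_one, mul_one, div_div_eq_mul_div, div_one]
      rw [h2] at h1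
      exact (le_abs_self _).trans (by simpa [Real.norm_eq_abs] using h1)
    -- lower bound for the Bessel sum
    have hlow : Real.exp (-(4 * Real.pi)) *
        ∑ n ∈ Finset.range (x + 1), ‖ModularFormClass.qCoeff f n‖ ^ 2 ≤
        ∑ n ∈ Finset.range (x + 1),
          ‖ModularFormClass.qCoeff f n‖ ^ 2 * Real.exp (-4 * Real.pi * n * (1 / x)) := by
      rw [Finset.mul_sum]
      refine Finset.sum_le_sum fun n hn => ?_
      rw [mul_comm]
      apply mul_le_mul_of_nonneg_left _ (by positivity)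
      apply Real.exp_le_exp.mpr
      have hn' : (n : ℝ) ≤ x := by
        have := Finset.mem_range.mp hn
        exact_mod_cast Nat.lt_succ_iff.mp this
      have : (n : ℝ) * (1 / x) ≤ 1 := by
        rw [mul_one_div, div_le_one hx0]
        exact hn'
      have hpi := Real.pi_pos
      nlinarith
    have hchain := hlow.trans (hB.trans hint)
    have hexp : Real.exp (4 * Real.pi) * Real.exp (-(4 * Real.pi)) = 1 := by
      rw [← Real.exp_add]; simp
    calc ∑ n ∈ Finset.range (x + 1), ‖ModularFormClass.qCoeff f n‖ ^ 2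
        = Real.exp (4 * Real.pi) * (Real.exp (-(4 * Real.pi)) *
            ∑ n ∈ Finset.range (x + 1), ‖ModularFormClass.qCoeff f n‖ ^ 2) := by
          rw [← mul_assoc, hexp, one_mul]
      _ ≤ Real.exp (4 * Real.pi) * (C * x) :=
          mul_le_mul_of_nonneg_left hchain (Real.exp_pos _).le
      _ = Real.exp (4 * Real.pi) * C * x := by ring

end Fermat.Agent.DS
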