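/-
Program DS (S48, Deligne–Serre), package F: **Rankin's bound**
  `∑_{p ∤ N} |a_p|² p^{-s} ≤ log (1/(s-1)) + O(1)`  as `s → 1⁺`
for a weight one cusp form on `Γ₁(N)` whose `q`-coefficients satisfy the Hecke relations of the
frozen statement S48 (hypotheses verbatim), and its density form.
-/
import Mathlib
import Fermat.Prelude.Def_FLTPrelim_Modularity
import Fermat.Agent.DS.F.Defs
import Fermat.Agent.DS.F.Abstract
import Fermat.Agent.DS.F.MeanSquare

set_option autoImplicit false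

open CongruenceSubgroup UpperHalfPlane

namespace Fermat.Agent.DS

/-- The frozen hypotheses of S48 give the formal Hecke relations `DsfHecke`. -/
theorem dsf_hecke_of_S48 (N : ℕ) [NeZero N] (ε : DirichletCharacter ℂ N)
    (f : CuspForm (Gamma1 N) 1) (hf₁ : ModularFormClass.qCoeff f 1 = 1)
    (hT : ∀ p : ℕ, p.Prime → ¬ p ∣ N → ∀ n : ℕ,
        ModularFormClass.qCoeff f (p * n) +
            ε (p : ZMod N) * (if p ∣ n then ModularFormClass.qCoeff f (n / p) else 0) =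
          ModularFormClass.qCoeff f p * ModularFormClass.qCoeff f n) :
    DsfHecke N (fun p => ε (p : ZMod N)) (fun n => ModularFormClass.qCoeff f n) where
  one := hf₁
  rel := hT
  norm_e := by
    intro p hp hpN
    have hcop : p.Coprime N := (Nat.Prime.coprime_iff_not_dvd hp).mpr hpN
    have hu : IsUnit (p : ZMod N) := (ZMod.isUnit_iff_coprime p N).mpr hcop
    obtain ⟨u, hu'⟩ := hu
    rw [← hu']
    exact DirichletCharacter.unit_norm_eq_one ε u

/-- **DS-F main (Rankin's bound)**, in the exact hypotheses of the frozen S48. -/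
theorem ds_rankin (N : ℕ) [NeZero N] (ε : DirichletCharacter ℂ N) (f : CuspForm (Gamma1 N) 1)
    (hf₁ : ModularFormClass.qCoeff f 1 = 1)
    (hT : ∀ p : ℕ, p.Prime → ¬ p ∣ N → ∀ n : ℕ,
        ModularFormClass.qCoeff f (p * n) +
            ε (p : ZMod N) * (if p ∣ n then ModularFormClass.qCoeff f (n / p) else 0) =
          ModularFormClass.qCoeff f p * ModularFormClass.qCoeff f n) :
    ∃ C : ℝ, ∀ s : ℝ, 1 < s → s ≤ 2 →
      Summable (fun p : DsfPrime N =>
        ‖ModularFormClass.qCoeff f p‖ ^ 2 * ((p : ℕ) : ℝ) ^ (-s)) ∧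
      ∑' p : DsfPrime N, ‖ModularFormClass.qCoeff f p‖ ^ 2 * ((p : ℕ) : ℝ) ^ (-s) ≤
        Real.log (1 / (s - 1)) + C := by
  obtain ⟨C, hC⟩ := dsf_meanSquare N f
  exact dsf_rankin_abstract N _ _ (dsf_hecke_of_S48 N ε f hf₁ hT) C hC

/-- **DS-F density form**: the primes with `|a_p|² ≥ c` carry at most `1/c` of the logarithmic
mass. -/
theorem ds_rankin_density (N : ℕ) [NeZero N] (ε : DirichletCharacter ℂ N)
    (f : CuspForm (Gamma1 N) 1) (hf₁ : ModularFormClass.qCoeff f 1 = 1)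
    (hT : ∀ p : ℕ, p.Prime → ¬ p ∣ N → ∀ n : ℕ,
        ModularFormClass.qCoeff f (p * n) +
            ε (p : ZMod N) * (if p ∣ n then ModularFormClass.qCoeff f (n / p) else 0) =
          ModularFormClass.qCoeff f p * ModularFormClass.qCoeff f n) :
    ∃ C : ℝ, ∀ c : ℝ, 0 < c → ∀ s : ℝ, 1 < s → s ≤ 2 →
      Summable (fun p : {p : DsfPrime N // c ≤ ‖ModularFormClass.qCoeff f (p : ℕ)‖ ^ 2} =>
        (((p : DsfPrime N) : ℕ) : ℝ) ^ (-s)) ∧
      ∑' p : {p : DsfPrime N // c ≤ ‖ModularFormClass.qCoeff f (p : ℕ)‖ ^ 2},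
          (((p : DsfPrime N) : ℕ) : ℝ) ^ (-s) ≤ (Real.log (1 / (s - 1)) + C) / c := by
  obtain ⟨C, hC⟩ := ds_rankin N ε f hf₁ hT
  refine ⟨C, fun c hc s hs1 hs2 => ?_⟩
  obtain ⟨hsum, hle⟩ := hC s hs1 hs2
  set F : DsfPrime N → ℝ := fun p => ‖ModularFormClass.qCoeff f p‖ ^ 2 * ((p : ℕ) : ℝ) ^ (-s)
    with hF
  have hF0 : ∀ p, 0 ≤ F p := fun p =>
    mul_nonneg (by positivity) (Real.rpow_nonneg (Nat.cast_nonneg _) _)
  -- restrict to the subtype
  have hsub : Summable (fun p : {p : DsfPrime N // c ≤ ‖ModularFormClass.qCoeff f (p : ℕ)‖ ^ 2} =>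
      F p) := hsum.subtype _
  have hterm : ∀ p : {p : DsfPrime N // c ≤ ‖ModularFormClass.qCoeff f (p : ℕ)‖ ^ 2},
      (((p : DsfPrime N) : ℕ) : ℝ) ^ (-s) ≤ F p / c := by
    intro p
    rw [le_div_iff₀ hc, hF]
    have h1 : 0 ≤ (((p : DsfPrime N) : ℕ) : ℝ) ^ (-s) := Real.rpow_nonneg (Nat.cast_nonneg _) _
    calc (((p : DsfPrime N) : ℕ) : ℝ) ^ (-s) * c
        = c * (((p : DsfPrime N) : ℕ) : ℝ) ^ (-s) := mul_comm _ _
      _ ≤ ‖ModularFormClass.qCoeff f ((p : DsfPrime N) : ℕ)‖ ^ 2 *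
            (((p : DsfPrime N) : ℕ) : ℝ) ^ (-s) := mul_le_mul_of_nonneg_right p.2 h1
  have hsub' : Summable (fun p : {p : DsfPrime N // c ≤ ‖ModularFormClass.qCoeff f (p : ℕ)‖ ^ 2} =>
      F p / c) := hsub.div_const c
  have hsumm : Summable (fun p : {p : DsfPrime N // c ≤ ‖ModularFormClass.qCoeff f (p : ℕ)‖ ^ 2} =>
      (((p : DsfPrime N) : ℕ) : ℝ) ^ (-s)) :=
    Summable.of_nonneg_of_le (fun p => Real.rpow_nonneg (Nat.cast_nonneg _) _) hterm hsub'
  refine ⟨hsumm, ?_⟩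
  calc ∑' p : {p : DsfPrime N // c ≤ ‖ModularFormClass.qCoeff f (p : ℕ)‖ ^ 2},
        (((p : DsfPrime N) : ℕ) : ℝ) ^ (-s)
      ≤ ∑' p : {p : DsfPrime N // c ≤ ‖ModularFormClass.qCoeff f (p : ℕ)‖ ^ 2}, F p / c :=
        Summable.tsum_le_tsum hterm hsumm hsub'
    _ = (∑' p : {p : DsfPrime N // c ≤ ‖ModularFormClass.qCoeff f (p : ℕ)‖ ^ 2}, F p) / c :=
        tsum_div_const
    _ ≤ (∑' p : DsfPrime N, F p) / c := by
        apply div_le_div_of_nonneg_right _ hc.le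
        calc ∑' p : {p : DsfPrime N // c ≤ ‖ModularFormClass.qCoeff f (p : ℕ)‖ ^ 2}, F p
            = ∑' p : DsfPrime N,
                ({p : DsfPrime N | c ≤ ‖ModularFormClass.qCoeff f (p : ℕ)‖ ^ 2}).indicator F p :=
              tsum_subtype _ F
          _ ≤ ∑' p : DsfPrime N, F p := by
              refine Summable.tsum_le_tsum (fun p => ?_) (hsum.indicator _) hsum
              exact Set.indicator_le_self' (fun _ _ => hF0 _) p
    _ ≤ (Real.log (1 / (s - 1)) + C) / c := div_le_div_of_nonneg_right hle hc.le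

end Fermat.Agent.DS
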