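/-
Program DS (S48, Deligne–Serre), package F: Rankin's bound — INTERFACE HUB (no stubs: every
statement of the blueprint is proved; this file only re-exports them).

Exported (namespace `Fermat.Agent.DS`):
* `DsfHecke N e a`, `DsfPrime N`                                  (`DS/F/Defs.lean`)
* `ds_rankin`, `ds_rankin_density`, `dsf_hecke_of_S48`            (`DS/F/Main.lean`)
* `dsf_rankin_abstract`                                            (`DS/F/Abstract.lean`)
* `dsf_meanSquare`, `dsf_bessel`, `dsf_fourierCoeffOn_line`, `dsf_line_bound`,
  `dsf_one_mem_strictPeriods_Gamma1`                               (`DS/F/MeanSquare.lean`)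
* `dsf_dirichlet_bound`                                            (`DS/F/Abel.lean`)
* `dsf_mul_prime_pow`, `dsf_mul_coprime`, `dsf_prime_pow_rec`      (`DS/F/Hecke.lean`)
* `dsf_ballot_expansion`, `dsf_ballot_sq_le`, `dsfMu`              (`DS/F/Ballot.lean`)
* `dsf_coeff_bound`, `dsf_local_factor`                            (`DS/F/Local.lean`)
* `dsf_euler_lower`, `dsf_log_correction`                          (`DS/F/Euler.lean`)
-/
import Fermat.Agent.DS.F.Main
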